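import Mathlib.Analysis.Complex.BorelCaratheodory
import Mathlib.Analysis.Complex.HasPrimitives
import Mathlib.Analysis.Complex.Liouville
import Mathlib.Analysis.SpecialFunctions.Exponential
import Mathlib.Analysis.SpecificLimits.Normed
import Mathlib.Analysis.Calculus.MeanValue

/-!
# The theorem of Gleason, Kahane and Żelazko

A functional `φ` with `φ 1 = 1` that vanishes at no unit has norm at most one, so
`p z = φ (exp (z x))` is entire, without zeros and of exponential type; so `p' = φ x · p`, and the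
second derivative at zero gives `φ (x²) = (φ x)²`, whence `φ` is multiplicative.
-/

set_option autoImplicit false

noncomputable section

open Complex Metric

namespace FA.GleasonKahaneZelazko

/-- An entire nonvanishing function of exponential type has constant logarithmic derivative. -/
theorem deriv_eq_mul_of_exp_type {p q : ℂ → ℂ} (hp : ∀ z, HasDerivAt p (q z) z)
    (hq : Differentiable ℂ q) (h0 : ∀ z, p z ≠ 0) (h1 : p 0 = 1) {C B : ℝ} (hC : 1 ≤ C)
    (hB : 0 ≤ B) (hbd : ∀ z, ‖p z‖ ≤ C * Real.exp (B * ‖z‖)) (z : ℂ) :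
    q z = q 0 * p z := by
  have hpd : Differentiable ℂ p := fun z => (hp z).differentiableAt
  obtain ⟨g₀, hg₀⟩ := ((hq.div hpd h0) : Differentiable ℂ fun z => q z / p z).isExactOn_univ
  set g : ℂ → ℂ := fun z => g₀ z - g₀ 0 with hg
  have hgd : ∀ z, HasDerivAt g (q z / p z) z := fun z =>
    (hg₀ z (Set.mem_univ z)).sub_const _
  have hgdiff : Differentiable ℂ g := fun z => (hgd z).differentiableAt
  have hpg : ∀ z, p z = exp (g z) := fun z => by
    have hd : ∀ w, HasDerivAt (fun w => p w * exp (-g w)) 0 w := fun w => by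
      refine ((hp w).mul (hgd w).neg.cexp).congr_deriv ?_
      have := h0 w
      simp only [Pi.neg_apply]
      field_simp
      ring
    have := is_const_of_deriv_eq_zero (fun w => (hd w).differentiableAt) (fun w => (hd w).deriv) z 0
    simp only [hg, h1, sub_self, neg_zero, exp_zero, mul_one] at this
    rw [exp_neg, mul_inv_eq_one₀ (exp_ne_zero _)] at this
    exact this
  have hre : ∀ z, (g z).re ≤ Real.log C + B * ‖z‖ := fun z => by
    have := hbd z
    rw [hpg, norm_exp, ← Real.exp_log (show (0 : ℝ) < C by linarith), ← Real.exp_add,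
      Real.exp_le_exp] at this
    exact this
  have hL : 0 ≤ Real.log C := Real.log_nonneg hC
  have hlin : ∀ z, ‖g z‖ ≤ 2 * (Real.log C + B + 1) + 4 * B * ‖z‖ := fun z => by
    have hz : z ∈ ball (0 : ℂ) (2 * ‖z‖ + 1) := by
      rw [mem_ball_zero_iff]; linarith [norm_nonneg z]
    have hM : 0 < Real.log C + B * (2 * ‖z‖ + 1) + 1 := by positivity
    have h := borelCaratheodory_zero (f := g) hM hgdiff.differentiableOn
      (fun w hw => (hre w).trans (by
        have := mul_le_mul_of_nonneg_left (mem_ball_zero_iff.1 hw).le hB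
        linarith)) (by positivity) hz (sub_self _)
    refine h.trans ?_
    rw [div_le_iff₀ (by linarith [norm_nonneg z])]
    nlinarith [norm_nonneg z, mul_nonneg hB (norm_nonneg z)]
  have hderiv : ∀ z, ‖q z / p z‖ ≤ 2 * (Real.log C + B + 1) + 8 * B := fun z => by
    rw [← (hgd z).deriv]
    have hR : 0 < ‖z‖ + 1 := by positivity
    refine (norm_deriv_le_of_forall_mem_sphere_norm_le hR hgdiff.diffContOnCl (fun w hw => ?_)
      (C := (2 * (Real.log C + B + 1) + 8 * B) * (‖z‖ + 1))).trans (le_of_eq ?_)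
    · have hw' : ‖w‖ ≤ 2 * ‖z‖ + 1 := by
        have := norm_le_norm_add_norm_sub' w z
        rw [mem_sphere_iff_norm] at hw
        linarith
      refine (hlin w).trans ?_
      nlinarith [mul_nonneg hB (norm_nonneg z), mul_nonneg hL (norm_nonneg z), norm_nonneg z]
    · field_simp
  have hb : Bornology.IsBounded (Set.range fun z => q z / p z) :=
    isBounded_iff_forall_norm_le.2 ⟨_, Set.forall_mem_range.2 hderiv⟩
  have hconst : q z / p z = q 0 / p 0 :=
    ((hq.div hpd h0) : Differentiable ℂ fun z => q z / p z).apply_eq_apply_of_bounded hb z 0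
  rwa [h1, div_one, div_eq_iff (h0 z)] at hconst

variable {A : Type*} [NormedRing A] [NormedAlgebra ℂ A] [CompleteSpace A]

/-- `‖exp y‖ ≤ (‖1‖ + 1) e ^ ‖y‖`, without `‖1‖ = 1`. -/
theorem norm_exp_le (y : A) : ‖NormedSpace.exp y‖ ≤ (‖(1 : A)‖ + 1) * Real.exp ‖y‖ := by
  refine (NormedSpace.exp_series_hasSum_exp' (𝕂 := ℂ) y).norm_le_of_bounded
    (g := fun n => (‖(1 : A)‖ + 1) * (‖y‖ ^ n / n.factorial)) ?_ fun n => ?_
  · refine HasSum.mul_left _ ?_
    rw [Real.exp_eq_exp_ℝ]
    exact NormedSpace.expSeries_div_hasSum_exp ‖y‖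
  · rw [norm_smul, norm_inv, Complex.norm_natCast, ← div_eq_inv_mul, ← mul_div_assoc]
    refine div_le_div_of_nonneg_right ?_ (Nat.cast_nonneg _)
    rcases n.eq_zero_or_pos with rfl | hn
    · simp
    · exact (norm_pow_le' y hn).trans (le_mul_of_one_le_left (by positivity)
        (le_add_of_nonneg_left (norm_nonneg _)))

variable (φ : A →ₗ[ℂ] ℂ) (h1 : φ 1 = 1) (hφ : ∀ x, IsUnit x → φ x ≠ 0)
include h1 hφ

theorem norm_apply_le (x : A) : ‖φ x‖ ≤ ‖x‖ := by
  by_contra! h
  have hx : φ x ≠ 0 := norm_pos_iff.1 ((norm_nonneg x).trans_lt h)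
  have hy : ‖(φ x)⁻¹ • x‖ < 1 := by
    rw [norm_smul, norm_inv, inv_mul_lt_one₀ (norm_pos_iff.2 hx)]
    exact h
  exact hφ _ (Units.oneSub _ hy).isUnit (by
    rw [Units.val_oneSub, map_sub, map_smul, h1, smul_eq_mul, inv_mul_cancel₀ hx, sub_self])

theorem apply_mul_self (x : A) : φ (x * x) = φ x * φ x := by
  set ψ : A →L[ℂ] ℂ := φ.mkContinuous 1 (fun y => by
    simpa using norm_apply_le φ h1 hφ y) with hψ
  set e : ℂ → A := fun z => NormedSpace.exp (z • x) with he
  have hp : ∀ z, HasDerivAt (fun z => ψ (e z)) (ψ (e z * x)) z := fun z =>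
    ψ.hasFDerivAt.comp_hasDerivAt z (hasDerivAt_exp_smul_const x z)
  have hq : ∀ z, HasDerivAt (fun z => ψ (e z * x)) (ψ (e z * x * x)) z := fun z =>
    ψ.hasFDerivAt.comp_hasDerivAt z ((hasDerivAt_exp_smul_const x z).mul_const x)
  have h0 : ∀ z, ψ (e z) ≠ 0 := fun z => hφ _ (NormedSpace.isUnit_exp_of_mem_ball (𝕂 := ℂ)
    ((NormedSpace.expSeries_radius_eq_top ℂ A).symm ▸ edist_lt_top _ _))
  have he0 : e 0 = 1 := by simp [he]
  have key := deriv_eq_mul_of_exp_type hp (fun z => (hq z).differentiableAt) h0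
    (by rw [he0]; exact h1) (le_add_of_nonneg_left (norm_nonneg (1 : A))) (norm_nonneg x)
    (fun z => (norm_apply_le φ h1 hφ _).trans ((norm_exp_le _).trans_eq (by
      rw [norm_smul, mul_comm ‖z‖])))
  have h2 : HasDerivAt (fun z => ψ (e 0 * x) * ψ (e z)) (ψ (e 0 * x) * ψ (e 0 * x)) 0 :=
    (hp 0).const_mul _
  rw [← funext key] at h2
  have h3 := (hq 0).unique h2
  rw [he0, one_mul] at h3
  exact h3

/-- **Gleason–Kahane–Żelazko**: the functional is multiplicative. -/
theorem apply_mul (x y : A) : φ (x * y) = φ x * φ y := by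
  have hJ : ∀ a b : A, φ (a * b) + φ (b * a) = 2 * (φ a * φ b) := fun a b => by
    have h := apply_mul_self φ h1 hφ (a + b)
    rw [add_mul, mul_add, mul_add, map_add, map_add, map_add, map_add,
      apply_mul_self φ h1 hφ a, apply_mul_self φ h1 hφ b] at h
    linear_combination h
  have hker : ∀ a b : A, φ a = 0 → φ (a * b) = 0 := fun a b ha => by
    have hs : φ (a * b) + φ (b * a) = 0 := by rw [hJ, ha, zero_mul, mul_zero]
    have hid : (a * b - b * a) * (a * b - b * a) + (a * b + b * a) * (a * b + b * a) =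
        (a * (b * a * b) + b * a * b * a) + (a * (b * a * b) + b * a * b * a) := by
      simp only [mul_add, add_mul, mul_sub, sub_mul, mul_assoc]
      abel
    have h := congrArg φ hid
    rw [map_add, apply_mul_self φ h1 hφ, apply_mul_self φ h1 hφ, map_add φ (_ + _),
      map_add φ (a * (b * a * b)), hJ, map_sub, map_add, hs, ha] at h
    simp only [mul_zero, zero_mul, add_zero, mul_self_eq_zero] at h
    linear_combination (hs + h) / 2
  have h := hker (x - φ x • 1) y (by rw [map_sub, map_smul, h1, smul_eq_mul, mul_one, sub_self])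
  rwa [sub_mul, smul_mul_assoc, one_mul, map_sub, map_smul, smul_eq_mul, sub_eq_zero] at h

end FA.GleasonKahaneZelazko

end
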